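import Fermat.Agent.MR.PLA.Chain

/-!
# MR / PLA : upper bounds for the pieces

`piece w ≤ L(a X_w + ⌊(div fb_w - C_w) / p⌋)`.
-/

set_option autoImplicit false
set_option linter.unusedSectionVars false

noncomputable section

namespace Fermat.Agent.MR.PLA

open AlgebraicCurve Fermat.Agent.Lib.RR Fermat.Agent.GAL.RED Fermat.Agent.DR.Abs

variable {K0 E0 k : Type*} [Field K0] [Field E0] [Algebra K0 E0] [Field k] {Ω : Type*}
  {Fb : Ω → Type*} [∀ w, Field (Fb w)] [∀ w, Algebra k (Fb w)] {Nd : Type*}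

namespace Kum

variable [Fintype Ω] [Fintype Nd] {T : MultiRed K0 E0 k Fb} {ϖ : K0} {N : NodeData k Fb Nd}
  {S : Poles T ϖ N} {p : ℕ} (κ : Kum S p) [LinearOrder Ω]

/-- the order of vanishing along `w'` of the functions `z = y ^ p f / ϖ ^ r_w`, `y ∈ Λ_{<w}`. -/
def cc (w w' : Ω) : ℕ :=
  (if w' < w then (p : ℤ) + κ.rr w' - κ.rr w else κ.rr w' - κ.rr w).toNat

/-- the bound at the branch `s` (own component `(N.branch s).1`, partner component `(N.branch s.swap).1`). -/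
def cs (s : Nd ⊕ Nd) : ℕ := κ.cc (N.branch s).1 (N.branch s.swap).1

/-- `C_w = ∑_{branches s on w} c_s P_s`. -/
def Cdiv (w : Ω) : Divisor k (Fb w) :=
  ∑ s : Nd ⊕ Nd, if h : (N.branch s).1 = w then
    Finsupp.single (h ▸ (N.branch s).2) (κ.cs s : ℤ) else 0

/-- the order is compatible with the `r_w`. -/
def Mono : Prop := ∀ w w' : Ω, w' < w → κ.rr w' ≤ κ.rr w

theorem cc_of_lt (hp : 0 < p) {w w' : Ω} (h : w' < w) :
    (κ.cc w w' : ℤ) = (p : ℤ) + κ.rr w' - κ.rr w := by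
  unfold cc
  rw [if_pos h, Int.toNat_of_nonneg]
  have := κ.rr_nonneg hp w'
  have := κ.rr_lt hp w
  omega

theorem cc_of_gt (hm : κ.Mono) {w w' : Ω} (h : w < w') :
    (κ.cc w w' : ℤ) = κ.rr w' - κ.rr w := by
  unfold cc
  rw [if_neg (not_lt.2 h.le), Int.toNat_of_nonneg]
  have := hm w' w h
  omega

/-- **(B0)** each node contributes `p`. -/
theorem cc_add_cc (hp : 0 < p) (hm : κ.Mono) {w w' : Ω} (h : w ≠ w') :
    (κ.cc w w' : ℤ) + κ.cc w' w = p := by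
  rcases lt_or_gt_of_ne h with h | h
  · rw [κ.cc_of_gt hm h, κ.cc_of_lt hp h]; ring
  · rw [κ.cc_of_lt hp h, κ.cc_of_gt hm h]; ring

/-- **(B0')** `c(w, w') ≡ i_w' - i_w (mod p)`. -/
theorem dvd_cc_sub (hp : 0 < p) (hm : κ.Mono) {w w' : Ω} (h : w ≠ w') :
    (p : ℤ) ∣ (κ.cc w w' : ℤ) - (κ.i w' - κ.i w) := by
  rw [κ.i_eq w, κ.i_eq w']
  rcases lt_or_gt_of_ne h with h | h
  · rw [κ.cc_of_gt hm h]
    exact ⟨κ.nn w' - κ.nn w, by ring⟩
  · rw [κ.cc_of_lt hp h]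
    exact ⟨1 + κ.nn w' - κ.nn w, by ring⟩

/-- (aux.) the `zpow` identity behind `zz_spec`. -/
theorem zz_spec_id {E : Type*} [Field E] {π y f : E} (hπ : π ≠ 0) (p : ℕ) (n i r : ℤ) (c : ℕ)
    (h : r + c = p * n + i) :
    y ^ p * f / π ^ r / π ^ c = (y / π ^ n) ^ p * (f / π ^ i) := by
  rw [div_div, ← zpow_natCast π c, ← zpow_add₀ hπ, h, zpow_add₀ hπ, div_pow, div_mul_div_comm,
    ← zpow_natCast (π ^ n) p, ← zpow_mul, mul_comm n (p : ℤ)]

/-- **(B1)** the function `z = y ^ p f / ϖ ^ r_w`.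
PROOF. Put `π = algebraMap ϖ ≠ 0`.  (1) `z = (ϖ ^ r_w)⁻¹ • (y ^ p * f)` (zpow in `K0`, `map_zpow₀`) and `κ.mem_Mf`.
For every `w'`, by `κ.i_eq`:  `z = (y / π ^ n_w') ^ p * (f / π ^ i_w') * π ^ (r_w' - r_w)` and `z = (y / π ^ (n_w' + 1)) ^ p * (f / π ^ i_w') * π ^ (p + r_w' - r_w)` (`field_simp`/`zpow_add₀`, `zpow_natCast`, `zpow_mul`).
`f / π ^ i_w' ∈ O_w'` (`mem_of_red_ne_zero (κ.red_f w')`); `π ^ (c : ℕ) ∈ O_w'`.
(4) for `w' ≠ w`: `z / π ^ cc w w' = (y / π ^ n_w') ^ p * (f / π ^ i_w')` if `w < w'` (`cc_of_gt`), `= (y / π ^ (n_w' + 1)) ^ p * (f / π ^ i_w')` if `w' < w` (`cc_of_lt`, `hy.2.2 w' h`).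
(2) follows from (4) (`z = z / π ^ c * π ^ c`) and, for `w' = w`, from `z = (y / π ^ n_w) ^ p * (f / π ^ i_w)`, which also gives (3) (`red_mul`, `red_pow`). -/
theorem zz_spec (hD : Disc T ϖ) (hp : 0 < p) (hm : κ.Mono) {a : ℕ} {w : Ω} {y : E0}
    (hy : y ∈ κ.LamU a {w' | w' < w}) :
    y ^ p * κ.f / algebraMap K0 E0 ϖ ^ κ.rr w ∈ S.L (p * a) ∧
    y ^ p * κ.f / algebraMap K0 E0 ϖ ^ κ.rr w ∈ T.O ∧
    (T.R w).red (y ^ p * κ.f / algebraMap K0 E0 ϖ ^ κ.rr w) =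
      (T.R w).red (y / algebraMap K0 E0 ϖ ^ κ.nn w) ^ p * κ.fb w ∧
    ∀ w', w' ≠ w → y ^ p * κ.f / algebraMap K0 E0 ϖ ^ κ.rr w / algebraMap K0 E0 ϖ ^ κ.cc w w' ∈
      (T.R w').O := by
  have hπ : algebraMap K0 E0 ϖ ≠ 0 := by simpa using hD.ne
  have hfO : ∀ w', κ.f / algebraMap K0 E0 ϖ ^ κ.i w' ∈ (T.R w').O :=
    fun w' => (T.R w').mem_of_red_ne_zero (κ.red_f w')
  have h4 : ∀ w', w' ≠ w →
      y ^ p * κ.f / algebraMap K0 E0 ϖ ^ κ.rr w / algebraMap K0 E0 ϖ ^ κ.cc w w' ∈ (T.R w').O := by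
    intro w' hw'
    rcases lt_or_gt_of_ne hw' with h | h
    · rw [zz_spec_id hπ p (κ.nn w' + 1) (κ.i w') (κ.rr w) (κ.cc w w')
        (by rw [κ.cc_of_lt hp h, κ.i_eq w']; ring)]
      exact (T.R w').O.mul_mem _ _ ((T.R w').O.pow_mem (hy.2.2 w' h) p) (hfO w')
    · rw [zz_spec_id hπ p (κ.nn w') (κ.i w') (κ.rr w) (κ.cc w w')
        (by rw [κ.cc_of_gt hm h, κ.i_eq w']; ring)]
      exact (T.R w').O.mul_mem _ _ ((T.R w').O.pow_mem (hy.2.1 w') p) (hfO w')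
  have hw : y ^ p * κ.f / algebraMap K0 E0 ϖ ^ κ.rr w =
      (y / algebraMap K0 E0 ϖ ^ κ.nn w) ^ p * (κ.f / algebraMap K0 E0 ϖ ^ κ.i w) := by
    have := zz_spec_id (y := y) (f := κ.f) hπ p (κ.nn w) (κ.i w) (κ.rr w) 0
      (by rw [κ.i_eq w]; push_cast; ring)
    rwa [pow_zero, div_one] at this
  refine ⟨?_, ?_, ?_, h4⟩
  · have e : y ^ p * κ.f / algebraMap K0 E0 ϖ ^ κ.rr w = (ϖ ^ κ.rr w)⁻¹ • (y ^ p * κ.f) := by
      rw [Algebra.smul_def, map_inv₀, map_zpow₀, div_eq_inv_mul]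
    rw [e]
    exact Submodule.smul_mem _ _ ((κ.mem_Mf a y).1 hy.1)
  · intro w'
    by_cases hw' : w' = w
    · subst hw'
      rw [hw]
      exact (T.R w').O.mul_mem _ _ ((T.R w').O.pow_mem (hy.2.1 w') p) (hfO w')
    · have e : y ^ p * κ.f / algebraMap K0 E0 ϖ ^ κ.rr w =
          y ^ p * κ.f / algebraMap K0 E0 ϖ ^ κ.rr w / algebraMap K0 E0 ϖ ^ κ.cc w w' *
            algebraMap K0 E0 ϖ ^ κ.cc w w' := by
        rw [div_mul_cancel₀ _ (pow_ne_zero _ hπ)]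
      rw [e]
      exact (T.R w').O.mul_mem _ _ (h4 w' hw')
        ((T.R w').O.pow_mem (T.algebraMap_mem hD.mem w') _)
  · rw [hw, (T.R w).red_mul ((T.R w).O.pow_mem (hy.2.1 w) p) (hfO w), (T.R w).red_pow]
    rfl

/-- **(B2)** the coefficients of `C_w`.
PROOF. `Finsupp.finset_sum_apply`; for each `s`: if `h : (N.branch s).1 = w`, `subst h`, then `N.branch s = ⟨_, Q⟩ ↔ (N.branch s).2 = Q` (`Sigma.ext_iff`, `heq_iff_eq`) and
`Finsupp.single_apply`; otherwise both sides are `0`. -/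
theorem Cdiv_apply (w : Ω) (Q : Place k (Fb w)) :
    κ.Cdiv w Q = ∑ s : Nd ⊕ Nd,
      (open Classical in if N.branch s = ⟨w, Q⟩ then (κ.cs s : ℤ) else 0) := by
  classical
  unfold Cdiv
  rw [Finsupp.finsetSum_apply]
  refine Finset.sum_congr rfl fun s _ => ?_
  by_cases h : (N.branch s).1 = w
  · subst h
    rw [dif_pos rfl, Finsupp.single_apply]
    refine if_congr ?_ rfl rfl
    constructor
    · intro hQ
      exact Sigma.ext rfl (heq_of_eq hQ)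
    · intro hQ
      exact eq_of_heq (Sigma.ext_iff.1 hQ).2
  · rw [dif_neg h, Finsupp.zero_apply, if_neg]
    intro hQ
    exact h (congrArg Sigma.fst hQ)

/-- (`Cdiv_apply`, `Finset.sum_eq_single s`, injectivity.) -/
theorem Cdiv_branch (hinj : Function.Injective N.branch) (s : Nd ⊕ Nd) :
    κ.Cdiv (N.branch s).1 (N.branch s).2 = κ.cs s := by
  classical
  rw [Cdiv_apply, Finset.sum_eq_single s]
  · rw [if_pos rfl]
  · intro s' _ hs'
    rw [if_neg]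
    intro h
    exact hs' (hinj h)
  · intro h
    exact absurd (Finset.mem_univ s) h

theorem Cdiv_of_not_branch (w : Ω) (Q : Place k (Fb w)) (h : ∀ s, N.branch s ≠ ⟨w, Q⟩) :
    κ.Cdiv w Q = 0 := by
  classical
  rw [Cdiv_apply]
  exact Finset.sum_eq_zero fun s _ => if_neg (h s)

variable [∀ w, IsFF k (Fb w)] [IsAlgClosed k]

/-- `⌊(div fb_w - C_w) / p⌋`. -/
def Bd (w : Ω) : Divisor k (Fb w) :=
  (divOf (K := k) (κ.fb w) - κ.Cdiv w).mapRange (fun n => n / (p : ℤ)) (by simp)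

/-- `(div fb_w - C_w) mod p`. -/
def Rem (w : Ω) : Divisor k (Fb w) :=
  (divOf (K := k) (κ.fb w) - κ.Cdiv w).mapRange (fun n => n % (p : ℤ)) (by simp)

theorem Bd_apply (w : Ω) (Q : Place k (Fb w)) :
    κ.Bd w Q = (Q.ord (κ.fb w) - κ.Cdiv w Q) / (p : ℤ) := by
  simp [Bd]

theorem Rem_apply (w : Ω) (Q : Place k (Fb w)) :
    κ.Rem w Q = (Q.ord (κ.fb w) - κ.Cdiv w Q) % (p : ℤ) := by
  simp [Rem]

/-- **(B3)** the vanishing at a branch, uniformly in the two types of branches.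
PROOF. `rcases s with e | e`.  `s = inl e`: `(N.branch s).1 = N.i₁ e`, `(N.branch s.swap).1 = N.i₂ e` definitionally; this is `S.van₁`.  `s = inr e`: `S.van₂`. -/
theorem van_branch (a α : ℕ) (z : E0) (s : Nd ⊕ Nd) (hz : z ∈ S.L a) (hzO : z ∈ T.O)
    (h : z / algebraMap K0 E0 ϖ ^ α ∈ (T.R (N.branch s.swap).1).O) :
    (T.R (N.branch s).1).red z = 0 ∨ (α : ℤ) ≤ (N.branch s).2.ord ((T.R (N.branch s).1).red z) := by
  rcases s with e | e
  · exact S.van₁ a α z e hz hzO h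
  · exact S.van₂ a α z e hz hzO h

theorem X_branch (s : Nd ⊕ Nd) : S.X (N.branch s).1 (N.branch s).2 = 0 := by
  rcases s with e | e
  · exact S.X_node₁ e
  · exact S.X_node₂ e

/-- **(B4)** the pointwise estimate.
PROOF. `z` from `zz_spec`, `zb := red_w z = yb ^ p * fb_w ≠ 0` (`κ.red_f w`), so `ord_Q zb = p ord_Q yb + ord_Q fb_w` (`Place.ord_mul`, `Place.ord_pow`/`ord_zpow`).
If `Q` is not a branch: `Cdiv = 0` (`Cdiv_of_not_branch`) and `S.int (p * a) z` gives `ord_Q zb ≥ - p a X_w Q` (`mem_riemannRochSpace_iff`).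
If `⟨w, Q⟩ = N.branch s`: (generalise: `obtain rfl`/`subst` after `Sigma.mk.inj_iff`, `eq_of_heq`) `Cdiv = cs s` (`Cdiv_branch`), `X = 0` (`X_branch`), and `van_branch (p * a) (cs s) z s` with (4) of `zz_spec`
(`(N.branch s.swap).1 ≠ (N.branch s).1` by `hloop`) gives `ord_Q zb ≥ cs s`. -/
theorem ord_estimate (hD : Disc T ϖ) (hp : 0 < p) (hm : κ.Mono)
    (hinj : Function.Injective N.branch) (hloop : ∀ e, N.i₁ e ≠ N.i₂ e) {a : ℕ} {w : Ω} {y : E0}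
    (hy : y ∈ κ.LamU a {w' | w' < w})
    (hy0 : (T.R w).red (y / algebraMap K0 E0 ϖ ^ κ.nn w) ≠ 0) (Q : Place k (Fb w)) :
    0 ≤ (p : ℤ) * (Q.ord ((T.R w).red (y / algebraMap K0 E0 ϖ ^ κ.nn w)) + a * S.X w Q) +
      (Q.ord (κ.fb w) - κ.Cdiv w Q) := by
  classical
  by_cases hbr : ∃ s, N.branch s = ⟨w, Q⟩
  · obtain ⟨s, hs⟩ := hbr
    have hw : (N.branch s).1 = w := by rw [hs]
    subst hw
    have hQ : (N.branch s).2 = Q :=
      eq_of_heq (Sigma.mk.inj_iff.1 (show (⟨(N.branch s).1, (N.branch s).2⟩ :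
        Σ i, Place k (Fb i)) = ⟨(N.branch s).1, Q⟩ from hs)).2
    subst hQ
    obtain ⟨hzL, hzO, hzred, hz4⟩ := κ.zz_spec hD hp hm hy
    have hfb : κ.fb (N.branch s).1 ≠ 0 := κ.red_f _
    have hne : (N.branch s.swap).1 ≠ (N.branch s).1 := by
      rcases s with e | e
      · exact (hloop e).symm
      · exact hloop e
    have hv := van_branch (S := S) (p * a) (κ.cs s) _ s hzL hzO (hz4 _ hne)
    rw [hzred] at hv
    rcases hv with hv | hv
    · exact absurd hv (mul_ne_zero (pow_ne_zero _ hy0) hfb)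
    · rw [Place.ord_mul _ (pow_ne_zero _ hy0) hfb, Fermat.Agent.GAL.RED.ord_pow] at hv
      rw [κ.Cdiv_branch hinj s, X_branch (S := S) s, mul_zero, add_zero]
      linarith
  · push Not at hbr
    obtain ⟨hzL, hzO, hzred, -⟩ := κ.zz_spec hD hp hm hy
    have hfb : κ.fb w ≠ 0 := κ.red_f _
    rw [κ.Cdiv_of_not_branch w Q hbr, sub_zero]
    have h1 := S.int (p * a) _ hzL hzO w
    rw [mem_riemannRochSpace_iff, hzred] at h1
    rcases h1 Q with h1 | h1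
    · exact absurd h1 (mul_ne_zero (pow_ne_zero _ hy0) hfb)
    · rw [Place.ord_mul _ (pow_ne_zero _ hy0) hfb, Fermat.Agent.GAL.RED.ord_pow, Finsupp.smul_apply,
        smul_eq_mul] at h1
      push_cast at h1
      have e : (p : ℤ) * (Q.ord ((T.R w).red (y / algebraMap K0 E0 ϖ ^ κ.nn w)) + a * S.X w Q) =
          (p : ℤ) * Q.ord ((T.R w).red (y / algebraMap K0 E0 ϖ ^ κ.nn w)) +
            (p : ℤ) * a * S.X w Q := by ring
      rw [e]
      linarith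

/-- **(B5)** the bound for the pieces.
PROOF. `u = red_w (y / π ^ n_w)`; `mem_riemannRochSpace_iff`; if `u ≠ 0`, (B4) and `Bd_apply`: from `0 ≤ p * t + m` get `- t ≤ m / p` (`Int.le_ediv_iff_mul_le`). -/
theorem piece_le (hD : Disc T ϖ) (hp : 0 < p) (hm : κ.Mono)
    (hinj : Function.Injective N.branch) (hloop : ∀ e, N.i₁ e ≠ N.i₂ e) (a : ℕ) (w : Ω) :
    κ.piece a w ≤ riemannRochSpace ((a : ℤ) • S.X w + κ.Bd w) := by
  rintro _ ⟨y, hy, -, rfl⟩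
  rw [mem_riemannRochSpace_iff]
  intro Q
  by_cases hy0 : (T.R w).red (y / algebraMap K0 E0 ϖ ^ κ.nn w) = 0
  · exact Or.inl hy0
  right
  have h := κ.ord_estimate hD hp hm hinj hloop hy hy0 Q
  have hp' : (0 : ℤ) < p := by exact_mod_cast hp
  rw [Finsupp.add_apply, Finsupp.smul_apply, smul_eq_mul, Bd_apply]
  have h2 : -(Q.ord ((T.R w).red (y / algebraMap K0 E0 ϖ ^ κ.nn w)) + a * S.X w Q) ≤
      (Q.ord (κ.fb w) - κ.Cdiv w Q) / (p : ℤ) := by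
    rw [Int.le_ediv_iff_mul_le hp']
    linarith
  linarith

end Kum

end Fermat.Agent.MR.PLA
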