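import Fermat.Agent.MR.PLA.Lattice

/-!
# MR / PLA : Nakayama: `rank Λ ≤ ∑ dim (pieces)`

Generalisation of `S36/RC/Chain.lean` (three components) to a finite linearly ordered family of components.
-/

set_option autoImplicit false
set_option linter.unusedSectionVars false

noncomputable section

namespace Fermat.Agent.MR.PLA

open AlgebraicCurve Fermat.Agent.Lib.RR Fermat.Agent.GAL.RED Fermat.Agent.DR.Abs

variable {K0 E0 k : Type*} [Field K0] [Field E0] [Algebra K0 E0] [Field k] {Ω : Type*}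
  {Fb : Ω → Type*} [∀ w, Field (Fb w)] [∀ w, Algebra k (Fb w)] {Nd : Type*}

/-- **(CH1)** `ϖ` lies in the Jacobson radical of `A`.
(Port of `S36.RC.Tri.span_q_le_jacobson`: `IsLocalRing.jacobson_eq_maximalIdeal`, `Ideal.span_le`; if `ϖ` were a unit of `A` then `ϖ⁻¹ ∈ A` and
`1 = redA (ϖ * ϖ⁻¹) = redA ϖ * redA ϖ⁻¹ = 0`; use `(T.R w).resA` for some... NOTE there may be no `w`; use instead `T.redA_ne_zero_iff` (needs `Nonempty Ω`, given).) -/
theorem span_le_jacobson [Nonempty Ω] {T : MultiRed K0 E0 k Fb} {ϖ : K0} (hD : Disc T ϖ) :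
    Ideal.span {(⟨ϖ, hD.mem⟩ : T.A)} ≤ (⊥ : Ideal T.A).jacobson := by
  rw [IsLocalRing.jacobson_eq_maximalIdeal _ bot_ne_top, Ideal.span_le, Set.singleton_subset_iff,
    SetLike.mem_coe, IsLocalRing.mem_maximalIdeal, mem_nonunits_iff]
  intro hu
  obtain ⟨u, hu⟩ := hu
  have h1 : ϖ⁻¹ ∈ T.A := by
    have h2 : ((u : T.A) : K0) * (((u⁻¹ : (T.A)ˣ) : T.A) : K0) = 1 := congrArg Subtype.val u.mul_inv
    rw [hu] at h2
    have h3 : (((u⁻¹ : (T.A)ˣ) : T.A) : K0) = ϖ⁻¹ := eq_inv_of_mul_eq_one_right h2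
    rw [← h3]
    exact ((u⁻¹ : (T.A)ˣ) : T.A).2
  exact (T.redA_ne_zero_iff.2 ⟨hD.ne, hD.mem, h1⟩) hD.redA

/-- **(CH2)** one step of the chain (port of `S36.RC.Chain_step`). -/
theorem chain_step (T : MultiRed K0 E0 k Fb) (w : Ω) (t : E0) (Nn M : Submodule T.A E0)
    (hM : ∀ y ∈ M, y / t ∈ (T.R w).O) (h : img T w t M ≤ img T w t (Nn ⊓ M)) {y : E0}
    (hy : y ∈ M) : ∃ ν ∈ Nn, y - ν ∈ M ∧ (T.R w).red ((y - ν) / t) = 0 := by
  have h0 : (T.R w).red (y / t) ∈ img T w t M := ⟨y, hy, hM y hy, rfl⟩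
  obtain ⟨ν, ⟨hνN, hνM⟩, hνO, hνred⟩ := h h0
  refine ⟨ν, hνN, M.sub_mem hy hνM, ?_⟩
  have h1 : (y - ν) / t + ν / t = y / t := by rw [← add_div, sub_add_cancel]
  have h2 : (y - ν) / t ∈ (T.R w).O := hM _ (M.sub_mem hy hνM)
  have h3 := (T.R w).red_add h2 hνO
  rw [h1, hνred] at h3
  exact (right_eq_add.mp h3)

/-- **(CH3)** lifting a basis of a piece (port of `S36.RC.Chain_exists_lift`). -/
theorem exists_lift (T : MultiRed K0 E0 k Fb) (w : Ω) (t : E0) (M : Submodule T.A E0)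
    (h : Module.Finite k (img T w t M)) :
    ∃ B : Finset E0, B.card ≤ Module.finrank k (img T w t M) ∧
      ∀ Nn : Submodule T.A E0, (B : Set E0) ⊆ Nn → img T w t M ≤ img T w t (Nn ⊓ M) := by
  classical
  have hv : ∀ j, ∃ y ∈ M, y / t ∈ (T.R w).O ∧
      (T.R w).red (y / t) = (Module.finBasis k (img T w t M) j : Fb w) :=
    fun j => (Module.finBasis k (img T w t M) j).2
  choose y hyM hyO hyr using hv
  refine ⟨Finset.univ.image y, ?_, fun Nn hN u hu => ?_⟩
  · refine Finset.card_image_le.trans ?_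
    rw [Finset.card_univ, Fintype.card_fin]
  · have hmem : ∀ j, (Module.finBasis k (img T w t M) j : Fb w) ∈ img T w t (Nn ⊓ M) := fun j =>
      ⟨y j, ⟨hN (by simp), hyM j⟩, hyO j, hyr j⟩
    have hsum := congrArg Subtype.val ((Module.finBasis k (img T w t M)).sum_repr ⟨u, hu⟩)
    have hsum' : u = ∑ j, (Module.finBasis k (img T w t M)).repr ⟨u, hu⟩ j •
        (Module.finBasis k (img T w t M) j : Fb w) := by
      rw [Submodule.coe_sum] at hsum
      exact hsum.symm
    rw [hsum']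
    exact Submodule.sum_mem _ fun j _ => Submodule.smul_mem _ _ (hmem j)

/-- the `A`-span is contained in the `K0`-span. -/
theorem span_le_span (T : MultiRed K0 E0 k Fb) (B : Set E0) {x : E0}
    (hx : x ∈ Submodule.span T.A B) : x ∈ Submodule.span K0 B := by
  induction hx using Submodule.span_induction with
  | mem x hx => exact Submodule.subset_span hx
  | zero => exact Submodule.zero_mem _
  | add x y _ _ hx hy => exact Submodule.add_mem _ hx hy
  | smul a x _ hx =>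
    have h : a • x = (a : K0) • x := rfl
    rw [h]
    exact Submodule.smul_mem _ _ hx

namespace Kum

variable [Fintype Ω] [Fintype Nd] {T : MultiRed K0 E0 k Fb} {ϖ : K0} {N : NodeData k Fb Nd}
  {S : Poles T ϖ N} {p : ℕ} (κ : Kum S p) [LinearOrder Ω]

/-- **(CH4)** descending along the chain.  If `Nn` surjects onto all the pieces then every `y ∈ Λ` is congruent modulo `Nn` to an element of `Λ_U`, for every
LOWER SET `U` of `Ω`.
PROOF. Induction on the finite set `U` with `Finset.induction_on_max` (statement: `∀ U : Finset Ω, IsLowerSet (U : Set Ω) → ∃ ν ∈ Nn, y - ν ∈ κ.LamU a U`).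
`U = ∅`: `ν = 0`.  `insert w U` with `∀ x ∈ U, x < w`, a lower set: then `(U : Set Ω) = {w' | w' < w}` (if `w' < w` then `w' ∈ insert w U`, `w' ≠ w`) and `U` is a lower set.
Induction hypothesis: `y - ν ∈ Λ_U = Λ_{<w}`.  `chain_step` for `M = Λ_{<w}`, `t = ϖ ^ n_w` gives `ν'`, and `mem_LamU_insert` concludes (`Finset.coe_insert`). -/
theorem exists_sub_mem_LamU (hD : Disc T ϖ) (a : ℕ) (Nn : Submodule T.A E0)
    (h : ∀ w, κ.piece a w ≤
      img T w (algebraMap K0 E0 ϖ ^ κ.nn w) (Nn ⊓ κ.LamU a {w' | w' < w}))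
    {y : E0} (hy : y ∈ κ.Lam a) (U : Finset Ω) (hU : IsLowerSet (U : Set Ω)) :
    ∃ ν ∈ Nn, y - ν ∈ κ.LamU a (U : Set Ω) := by
  classical
  induction U using Finset.induction_on_max with
  | empty =>
    refine ⟨0, Nn.zero_mem, ?_⟩
    rw [sub_zero, Finset.coe_empty]
    exact hy
  | insert w U hlt ih =>
    have hUeq : (U : Set Ω) = {w' | w' < w} := by
      ext w'
      constructor
      · intro hw'
        exact hlt w' hw'
      · intro hw'
        have h1 : w' ∈ ((insert w U : Finset Ω) : Set Ω) :=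
          hU (le_of_lt hw') (Finset.mem_coe.mpr (Finset.mem_insert_self w U))
        rcases Finset.mem_insert.mp (Finset.mem_coe.mp h1) with h2 | h2
        · exact absurd h2 (ne_of_lt hw')
        · exact h2
    have hUlow : IsLowerSet (U : Set Ω) := by
      rw [hUeq]
      intro x z hzx hx
      exact lt_of_le_of_lt hzx hx
    obtain ⟨ν, hν, hyν⟩ := ih hUlow
    rw [hUeq] at hyν
    obtain ⟨ν', hν', hy', hred⟩ := chain_step T w (algebraMap K0 E0 ϖ ^ κ.nn w) Nn
      (κ.LamU a {w' | w' < w}) (fun z hz => hz.2.1 w) (h w) hyν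
    refine ⟨ν + ν', Nn.add_mem hν hν', ?_⟩
    rw [Finset.coe_insert, hUeq, ← sub_sub]
    exact κ.mem_LamU_insert hD hy' hred

/-- **(CH5) Nakayama.**
PROOF (see `S36.RC.Kum.Lam_le_of_img_le`). `Submodule.le_of_le_smul_of_le_jacobson_bot (κ.Lam_fg hD a) (span_le_jacobson hD)`; for `y ∈ Λ`, (CH4) with `U = Finset.univ` gives `ν ∈ Nn` with
`y - ν ∈ Λ_Ω`, `= ϖ y'` with `y' ∈ Λ` (`exists_of_mem_LamU_univ`), so `y = ν + ϖ • y' ∈ Nn ⊔ (ϖ) • Λ`. -/
theorem Lam_le_of_img_le [Nonempty Ω] (hD : Disc T ϖ) (a : ℕ) (Nn : Submodule T.A E0)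
    (h : ∀ w, κ.piece a w ≤
      img T w (algebraMap K0 E0 ϖ ^ κ.nn w) (Nn ⊓ κ.LamU a {w' | w' < w})) :
    κ.Lam a ≤ Nn := by
  refine Submodule.le_of_le_smul_of_le_jacobson_bot (κ.Lam_fg hD a) (span_le_jacobson hD) ?_
  intro y hy
  obtain ⟨ν, hν, hyν⟩ := κ.exists_sub_mem_LamU hD a Nn h hy Finset.univ (by
    rw [Finset.coe_univ]; exact isLowerSet_univ)
  rw [Finset.coe_univ] at hyν
  obtain ⟨y', hy', he⟩ := κ.exists_of_mem_LamU_univ hD hyν
  have h4 : y = ν + (⟨ϖ, hD.mem⟩ : T.A) • y' := by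
    rw [smul_eq, ← he, add_sub_cancel]
  rw [h4]
  exact Submodule.add_mem_sup hν
    (Submodule.smul_mem_smul (Ideal.subset_span (Set.mem_singleton _)) hy')

/-- **(CH6)** `rank Λ ≤ ∑ dim (pieces)`.
PROOF (see `S36.RC.Kum.finrank_Mf_le`). `choose B hBc hB using fun w => exists_lift T w _ _ (h w)`; `Bt := Finset.univ.biUnion B`; `κ.Lam a ≤ span A Bt` by (CH5);
`κ.Mf a ≤ span K0 Bt` (`exists_pow_mul_mem_Lam`, `span_le_span`, `Submodule.smul_mem_iff`); `Submodule.finrank_mono`, `finrank_span_finset_le_card`, `Finset.card_biUnion_le`. -/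
theorem finrank_Mf_le [Nonempty Ω] (hD : Disc T ϖ) (a : ℕ)
    (h : ∀ w, Module.Finite k (κ.piece a w)) :
    Module.finrank K0 (κ.Mf a) ≤ ∑ w, Module.finrank k (κ.piece a w) := by
  classical
  choose B hBc hB using fun w => exists_lift T w _ _ (h w)
  have hLam : κ.Lam a ≤ Submodule.span T.A ((Finset.univ.biUnion B : Finset E0) : Set E0) := by
    apply κ.Lam_le_of_img_le hD
    intro w
    refine hB w _ fun x hx => Submodule.subset_span ?_
    exact Finset.mem_coe.mpr (Finset.mem_biUnion.mpr ⟨w, Finset.mem_univ w, hx⟩)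
  have hMf : κ.Mf a ≤ Submodule.span K0 ((Finset.univ.biUnion B : Finset E0) : Set E0) := by
    intro y hy
    obtain ⟨n, hn⟩ := κ.exists_pow_mul_mem_Lam hD hy
    have h4 := span_le_span T _ (hLam hn)
    have h5 : algebraMap K0 E0 ϖ ^ n * y = (ϖ ^ n) • y := by
      rw [Algebra.smul_def, map_pow]
    rw [h5] at h4
    exact (Submodule.smul_mem_iff _ (pow_ne_zero n hD.ne)).mp h4
  calc Module.finrank K0 (κ.Mf a)
      ≤ Module.finrank K0 (Submodule.span K0
          ((Finset.univ.biUnion B : Finset E0) : Set E0)) := Submodule.finrank_mono hMf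
    _ ≤ (Finset.univ.biUnion B).card := finrank_span_finset_le_card _
    _ ≤ ∑ w, (B w).card := Finset.card_biUnion_le
    _ ≤ ∑ w, Module.finrank k (κ.piece a w) := Finset.sum_le_sum fun w _ => hBc w

end Kum

end Fermat.Agent.MR.PLA
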