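import Fermat.Agent.MR.PLA.Bound

/-!
# MR / PLA : the count: `(div fb_w - C_w) mod p = 0`
-/

set_option autoImplicit false
set_option linter.unusedSectionVars false

noncomputable section

namespace Fermat.Agent.MR.PLA

open AlgebraicCurve Fermat.Agent.Lib.RR Fermat.Agent.GAL.RED Fermat.Agent.DR.Abs

variable {K0 E0 k : Type*} [Field K0] [Field E0] [Algebra K0 E0] [Field k] {Ω : Type*}
  {Fb : Ω → Type*} [∀ w, Field (Fb w)] [∀ w, Algebra k (Fb w)] {Nd : Type*}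

namespace Kum

variable [Fintype Ω] [Fintype Nd] {T : MultiRed K0 E0 k Fb} {ϖ : K0} {N : NodeData k Fb Nd}
  {S : Poles T ϖ N} {p : ℕ} (κ : Kum S p) [LinearOrder Ω] [∀ w, IsFF k (Fb w)] [IsAlgClosed k]

/-- **(D1)** (`divOf fb - C = p • Bd + Rem` by `Int.mul_ediv_add_emod`; `degree_divOf`; compare `S36.Abs.degree_quoDiv_add`.) -/
theorem degree_Bd (w : Ω) :
    (p : ℤ) * Divisor.degree (κ.Bd w) + Divisor.degree (κ.Rem w) =
      -Divisor.degree (κ.Cdiv w) := by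
  have h : divOf (K := k) (κ.fb w) - κ.Cdiv w = p • κ.Bd w + κ.Rem w := by
    ext Q
    rw [Finsupp.add_apply, Finsupp.smul_apply, Finsupp.sub_apply, divOf_apply, Bd_apply, Rem_apply,
      nsmul_eq_mul]
    exact (Int.mul_ediv_add_emod _ _).symm
  have h2 := congrArg Divisor.degree h
  rw [map_sub, degree_divOf, map_add, map_nsmul, nsmul_eq_mul] at h2
  linarith

theorem Rem_nonneg (hp : 0 < p) (w : Ω) : 0 ≤ κ.Rem w := by
  intro Q
  rw [Rem_apply]
  exact Int.emod_nonneg _ (by exact_mod_cast hp.ne')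

/-- **(D2a)** the degree of `C_w`.
PROOF. `map_sum`; for each `s`: `split_ifs`; `Divisor.degree_single`, `GAL.FF.deg_eq_one_of_isAlgClosed`; `map_zero`. -/
theorem degree_Cdiv (w : Ω) :
    Divisor.degree (κ.Cdiv w) = ∑ s : Nd ⊕ Nd, if (N.branch s).1 = w then (κ.cs s : ℤ) else 0 := by
  unfold Cdiv
  rw [map_sum]
  refine Finset.sum_congr rfl fun s _ => ?_
  by_cases h : (N.branch s).1 = w
  · rw [dif_pos h, if_pos h, Divisor.degree_single, deg_eq_one]
    simp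
  · rw [dif_neg h, if_neg h, map_zero]

/-- **(D2b)** each node contributes `p`.
PROOF. `degree_Cdiv`, `Finset.sum_comm`, `Finset.sum_ite_eq`: `∑_w deg C_w = ∑_s cs s`; `Fintype.sum_sum_type`; `cs (inl e) + cs (inr e) = cc (i₁ e) (i₂ e) + cc (i₂ e) (i₁ e) = p` (`cc_add_cc`, definitional unfolding of
`N.branch`, `Sum.swap`); `Finset.sum_const`, `Finset.card_univ`. -/
theorem sum_degree_Cdiv (hp : 0 < p) (hm : κ.Mono) (hloop : ∀ e, N.i₁ e ≠ N.i₂ e) :
    ∑ w, Divisor.degree (κ.Cdiv w) = (p : ℤ) * Fintype.card Nd := by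
  have h1 : ∑ w, Divisor.degree (κ.Cdiv w) = ∑ s : Nd ⊕ Nd, (κ.cs s : ℤ) := by
    rw [Finset.sum_congr rfl fun w _ => κ.degree_Cdiv w, Finset.sum_comm]
    refine Finset.sum_congr rfl fun s _ => ?_
    rw [Finset.sum_ite_eq]
    simp
  rw [h1, Fintype.sum_sum_type, ← Finset.sum_add_distrib]
  have h2 : ∀ e : Nd, (κ.cs (Sum.inl e) : ℤ) + κ.cs (Sum.inr e) = p := fun e =>
    κ.cc_add_cc hp hm (hloop e)
  rw [Finset.sum_congr rfl fun e _ => h2 e, Finset.sum_const, Finset.card_univ, nsmul_eq_mul]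
  ring

/-- **(D3)** for `a` large all the divisors `a X_w + Bd_w` are non special.
PROOF. `a₁ := ∑ w, (2 * g_w + |deg Bd_w|).toNat`-like bound; `deg (a X_w) = a deg X_w ≥ a` (`S.deg_pos`); compare `S36.RC.Poles.exists_big`. -/
theorem exists_big : ∃ a₁ : ℕ, ∀ a : ℕ, a₁ ≤ a → ∀ w,
    2 * (genusFF k (Fb w) : ℤ) - 2 < Divisor.degree ((a : ℤ) • S.X w + κ.Bd w) := by
  classical
  refine ⟨∑ w, (2 * (genusFF k (Fb w) : ℤ) - Divisor.degree (κ.Bd w)).toNat, fun a ha w => ?_⟩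
  have h1 : (2 * (genusFF k (Fb w) : ℤ) - Divisor.degree (κ.Bd w)).toNat ≤ a :=
    (Finset.single_le_sum
      (f := fun w => (2 * (genusFF k (Fb w) : ℤ) - Divisor.degree (κ.Bd w)).toNat)
      (fun _ _ => Nat.zero_le _) (Finset.mem_univ w)).trans ha
  have h2 : 2 * (genusFF k (Fb w) : ℤ) - Divisor.degree (κ.Bd w) ≤ a :=
    (Int.self_le_toNat _).trans (by exact_mod_cast h1)
  have h3 := S.deg_pos w
  have h4 : (a : ℤ) ≤ (a : ℤ) * Divisor.degree (S.X w) :=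
    le_mul_of_one_le_right (Int.natCast_nonneg a) h3
  rw [map_add, map_zsmul, smul_eq_mul]
  linarith

/-- **(D4) THE COUNT.** -/
theorem sum_degree_Rem_le [Nonempty Ω] (hD : Disc T ϖ) (hp : 0 < p) (hm : κ.Mono)
    (hinj : Function.Injective N.branch) (hloop : ∀ e, N.i₁ e ≠ N.i₂ e) :
    ∑ w, Divisor.degree (κ.Rem w) ≤ 0 := by
  obtain ⟨a₁, ha₁⟩ := κ.exists_big
  set a := max a₁ κ.a0 with ha
  have hbig := ha₁ a (le_max_left _ _)
  have l : ∀ w, κ.piece a w ≤ riemannRochSpace ((a : ℤ) • S.X w + κ.Bd w) :=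
    fun w => κ.piece_le hD hp hm hinj hloop a w
  have f : ∀ w, Module.Finite k (κ.piece a w) := fun w => Submodule.finiteDimensional_of_le (l w)
  have d : ∀ w ∈ (Finset.univ : Finset Ω),
      Module.finrank k (κ.piece a w) ≤ ell ((a : ℤ) • S.X w + κ.Bd w) :=
    fun w _ => Submodule.finrank_mono (l w)
  have h1 := κ.finrank_Mf a (le_max_right _ _)
  have h2 := κ.finrank_Mf_le hD a f
  have h3 := Finset.sum_le_sum d
  have h4 : (Module.finrank K0 (κ.Mf a) : ℤ) ≤ ∑ w, (ell ((a : ℤ) • S.X w + κ.Bd w) : ℤ) := by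
    exact_mod_cast h2.trans h3
  rw [Finset.sum_congr rfl (fun w _ => ell_eq_of_lt_degree' (hbig w))] at h4
  simp only [map_add, map_zsmul, smul_eq_mul] at h4
  have h5 : ∑ w, ((a : ℤ) * Divisor.degree (S.X w) + Divisor.degree (κ.Bd w) + 1 -
      (genusFF k (Fb w) : ℤ)) = (a : ℤ) * ∑ w, Divisor.degree (S.X w) +
        ∑ w, Divisor.degree (κ.Bd w) - ∑ w, ((genusFF k (Fb w) : ℤ) - 1) := by
    rw [Finset.mul_sum, ← Finset.sum_add_distrib, ← Finset.sum_sub_distrib]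
    exact Finset.sum_congr rfl fun w _ => by ring
  rw [h5] at h4
  have h6 : (p : ℤ) * ∑ w, Divisor.degree (κ.Bd w) + ∑ w, Divisor.degree (κ.Rem w) =
      -((p : ℤ) * Fintype.card Nd) := by
    rw [← κ.sum_degree_Cdiv hp hm hloop, Finset.mul_sum, ← Finset.sum_add_distrib,
      ← Finset.sum_neg_distrib]
    exact Finset.sum_congr rfl fun w _ => κ.degree_Bd w
  have h7 := S.genus_le
  have hp' : (0 : ℤ) < p := by exact_mod_cast hp
  have h8 : 0 ≤ ∑ w, Divisor.degree (κ.Bd w) + Fintype.card Nd := by linarith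
  nlinarith

/-- **(D5)** all the floors are exact. -/
theorem Rem_eq_zero [Nonempty Ω] (hD : Disc T ϖ) (hp : 0 < p) (hm : κ.Mono)
    (hinj : Function.Injective N.branch) (hloop : ∀ e, N.i₁ e ≠ N.i₂ e) (w : Ω) :
    κ.Rem w = 0 := by
  have h1 := κ.sum_degree_Rem_le hD hp hm hinj hloop
  have h2 : ∀ w ∈ (Finset.univ : Finset Ω), 0 ≤ Divisor.degree (κ.Rem w) :=
    fun w _ => degree_nonneg (κ.Rem_nonneg hp w)
  have h3 : ∑ w, Divisor.degree (κ.Rem w) = 0 := le_antisymm h1 (Finset.sum_nonneg h2)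
  exact eq_zero_of_nonneg_of_degree (κ.Rem_nonneg hp w)
    ((Finset.sum_eq_zero_iff_of_nonneg h2).1 h3 w (Finset.mem_univ w))

theorem dvd_ord_sub_Cdiv [Nonempty Ω] (hD : Disc T ϖ) (hp : 0 < p) (hm : κ.Mono)
    (hinj : Function.Injective N.branch) (hloop : ∀ e, N.i₁ e ≠ N.i₂ e) (w : Ω)
    (Q : Place k (Fb w)) : (p : ℤ) ∣ Q.ord (κ.fb w) - κ.Cdiv w Q := by
  have h := congrArg (fun D : Divisor k (Fb w) => D Q) (κ.Rem_eq_zero hD hp hm hinj hloop w)
  simp only [Rem_apply, Finsupp.coe_zero, Pi.zero_apply] at h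
  exact Int.dvd_of_emod_eq_zero h

end Kum

end Fermat.Agent.MR.PLA
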