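import Fermat.Agent.DR.Abs.Glued
import Fermat.Agent.S36.Abs.Slopes

/-!
# MR / PLA : the abstract chain count over a DVR ("slope = difference of the vertical valuations mod p").  Definitions = CONTRACT for block PLC.

`K0` a discretely valued field (valuation ring `T.A`, uniformiser `ϖ`, residue field `k` algebraically closed), `E0 / K0` a function field,
`T : MultiRed K0 E0 k Fb` a finite family (index set `Ω`) of valuation rings of `E0` over `T.A`, all UNRAMIFIED (`Disc.ker`), with residue fields `Fb w`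
(function fields over `k`); `N : NodeData k Fb Nd` a family of pairs of points ("nodes of thickness one", `Poles.van₁`, `Poles.van₂`).

* `Disc T ϖ`   : discreteness;
* `Poles T ϖ N`: the spaces `L a = L(a X)`, integrality `int`, the vanishing estimates `van₁`, `van₂` (V'), the genus inequality;
* `Kum S p`    : `f` with `div f = p D`, `i w = w(f) ∈ ℤ`, `Mf a = L(a X + D)` with Riemann's inequality and boundedness of the unit ball.

OUTPUT (`Main.lean`, `slope_formula`): with `fb w = red_w (f / ϖ ^ i w)`: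
`ord_P (fb w) ≡ i w' - i w  (mod p)` at a node `(w, P) ~ (w', P')`, and `ord_P (fb w) ≡ 0 (mod p)` at all the other places.

PROOF (helper84's count).  `i w = - p n_w + r_w`, `0 ≤ r_w < p`.  `Λ = {y ∈ Mf a : w(y) ≥ n_w}`, a lattice of rank `≥ a d + 1 - g`.  Order `Ω` by increasing `r_w`.
`Λ_{<w} = {y ∈ Λ : w'(y) ≥ n_w' + 1 for w' < w}`, piece `w` = image of `Λ_{<w}` by `y ↦ red_w (y / ϖ ^ n_w)`; `rank Λ ≤ ∑ dim (pieces)` (Nakayama).
For `y ∈ Λ_{<w}`, `z = y ^ p f / ϖ ^ r_w ∈ L (p a)` is integral, `w'(z) ≥ r_w' - r_w` (`w' > w`), `≥ p + r_w' - r_w` (`w' < w`), `red_w z = ȳ ^ p fb_w`.  By (V') `ȳ` lies in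
`L(a X_w + ⌊(div fb_w - C_w) / p⌋)`, `C_w` = sum of these bounds over the branches on `w`.  Each node contributes `p` to `∑ deg C_w`.  So
`a d + 1 - g ≤ ∑_w (a d_w + 1 - g_w) - #Nd - (1/p) ∑_w deg ((div fb_w - C_w) mod p)`, and the genus inequality gives `(div fb_w - C_w) mod p = 0`.
-/

set_option autoImplicit false

noncomputable section

namespace Fermat.Agent.MR.PLA

open AlgebraicCurve Fermat.Agent.Lib.RR Fermat.Agent.GAL.RED Fermat.Agent.DR.Abs

variable {K0 E0 k : Type*} [Field K0] [Field E0] [Algebra K0 E0] [Field k] {Ω : Type*}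
  {Fb : Ω → Type*} [∀ w, Field (Fb w)] [∀ w, Algebra k (Fb w)] {Nd : Type*}

/-- The base is discretely valued with uniformiser `ϖ`, and all the valuations of `T` are unramified over it. -/
structure Disc (T : MultiRed K0 E0 k Fb) (ϖ : K0) : Prop where
  ne : ϖ ≠ 0
  mem : ϖ ∈ T.A
  redA : T.redA ϖ = 0
  noeth : IsNoetherianRing T.A
  ker : ∀ w, ∀ z ∈ (T.R w).O, (T.R w).red z = 0 → z / algebraMap K0 E0 ϖ ∈ (T.R w).O
  scale : ∀ (w : Ω) (z : E0), ∃ n : ℕ, algebraMap K0 E0 ϖ ^ n * z ∈ (T.R w).O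

/-- Pole spaces, integrality, vanishing estimates, genus inequality. -/
structure Poles [Fintype Ω] [Fintype Nd] (T : MultiRed K0 E0 k Fb) (ϖ : K0)
    (N : NodeData k Fb Nd) where
  /-- `L a = L(a X)` -/
  L : ℕ → Submodule K0 E0
  /-- the reduction of `X` on the components -/
  X : ∀ w, Divisor k (Fb w)
  X_node₁ : ∀ e, X (N.i₁ e) (N.p₁ e) = 0
  X_node₂ : ∀ e, X (N.i₂ e) (N.p₂ e) = 0
  deg_pos : ∀ w, 0 < Divisor.degree (X w)
  /-- integrality -/
  int : ∀ (a : ℕ) (z : E0), z ∈ L a → z ∈ T.O → ∀ w,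
    (T.R w).red z ∈ riemannRochSpace ((a : ℤ) • X w)
  /-- (V') a function which vanishes to the order `α` along the component `i₂ e` vanishes to the order `α` at the point `p₁ e` of the component `i₁ e` -/
  van₁ : ∀ (a α : ℕ) (z : E0) (e : Nd), z ∈ L a → z ∈ T.O →
    z / algebraMap K0 E0 ϖ ^ α ∈ (T.R (N.i₂ e)).O →
    (T.R (N.i₁ e)).red z = 0 ∨ (α : ℤ) ≤ (N.p₁ e).ord ((T.R (N.i₁ e)).red z)
  van₂ : ∀ (a α : ℕ) (z : E0) (e : Nd), z ∈ L a → z ∈ T.O →
    z / algebraMap K0 E0 ϖ ^ α ∈ (T.R (N.i₁ e)).O →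
    (T.R (N.i₂ e)).red z = 0 ∨ (α : ℤ) ≤ (N.p₂ e).ord ((T.R (N.i₂ e)).red z)
  /-- the genus of the generic fibre -/
  g : ℤ
  genus_le : g - 1 ≤ ∑ w, ((genusFF k (Fb w) : ℤ) - 1) + Fintype.card Nd

/-- A Kummer datum: `f` with `div f = p D`; `Mf a = L(a X + D)`. -/
structure Kum [Fintype Ω] [Fintype Nd] {T : MultiRed K0 E0 k Fb} {ϖ : K0}
    {N : NodeData k Fb Nd} (S : Poles T ϖ N) (p : ℕ) where
  f : E0
  /-- the valuations of `f` -/
  i : Ω → ℤ
  red_f : ∀ w, (T.R w).red (f / algebraMap K0 E0 ϖ ^ i w) ≠ 0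
  Mf : ℕ → Submodule K0 E0
  mem_Mf : ∀ (a : ℕ) (y : E0), y ∈ Mf a ↔ y ^ p * f ∈ S.L (p * a)
  /-- Riemann's inequality on the generic fibre -/
  a0 : ℕ
  finrank_Mf : ∀ a : ℕ, a0 ≤ a →
    (a : ℤ) * ∑ w, Divisor.degree (S.X w) + 1 - S.g ≤ (Module.finrank K0 (Mf a) : ℤ)
  /-- the unit ball is bounded -/
  bdd : ∀ a : ℕ, ∃ B : Finset E0, ∀ y ∈ Mf a, y ∈ T.O → y ∈ Submodule.span T.A (B : Set E0)

namespace Kum

variable [Fintype Ω] [Fintype Nd] {T : MultiRed K0 E0 k Fb} {ϖ : K0} {N : NodeData k Fb Nd}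
  {S : Poles T ϖ N} {p : ℕ} (κ : Kum S p)

/-- the reduction of `f` on the component `w`. -/
def fb (w : Ω) : Fb w := (T.R w).red (κ.f / algebraMap K0 E0 ϖ ^ κ.i w)

/-- `n_w = ⌈- i_w / p⌉`. -/
def nn (w : Ω) : ℤ := -(κ.i w / (p : ℤ))

/-- `r_w = i_w mod p`, so that `i_w = - p n_w + r_w`. -/
def rr (w : Ω) : ℤ := κ.i w % (p : ℤ)

theorem i_eq (w : Ω) : κ.i w = -((p : ℤ) * κ.nn w) + κ.rr w := by
  unfold nn rr
  have := Int.mul_ediv_add_emod (κ.i w) (p : ℤ)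
  linarith

theorem rr_nonneg (hp : 0 < p) (w : Ω) : 0 ≤ κ.rr w :=
  Int.emod_nonneg _ (by exact_mod_cast hp.ne')

theorem rr_lt (hp : 0 < p) (w : Ω) : κ.rr w < p :=
  Int.emod_lt_of_pos _ (by exact_mod_cast hp)

end Kum

end Fermat.Agent.MR.PLA
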