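import Fermat.Agent.MR.PLA.Defs

/-!
# MR / PLA : the lattice `Λ`, the sublattices `Λ_U`, the pieces (definitions and basic facts)
-/

set_option autoImplicit false
set_option linter.unusedSectionVars false

noncomputable section

namespace Fermat.Agent.MR.PLA

open AlgebraicCurve Fermat.Agent.Lib.RR Fermat.Agent.GAL.RED Fermat.Agent.DR.Abs

variable {K0 E0 k : Type*} [Field K0] [Field E0] [Algebra K0 E0] [Field k] {Ω : Type*}
  {Fb : Ω → Type*} [∀ w, Field (Fb w)] [∀ w, Algebra k (Fb w)] {Nd : Type*}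

section img

variable (T : MultiRed K0 E0 k Fb)

theorem smul_eq (a : T.A) (y : E0) : a • y = algebraMap K0 E0 (a : K0) * y := by
  rw [← Algebra.smul_def]; rfl

theorem algebraMap_mem' (w : Ω) (a : T.A) : algebraMap K0 E0 (a : K0) ∈ (T.R w).O :=
  T.algebraMap_mem a.2 w

/-- The image in `Fb w` of an `A`-submodule `M` of `E0` under `y ↦ red_w (y / t)`. -/
def img (w : Ω) (t : E0) (M : Submodule T.A E0) : Submodule k (Fb w) where
  carrier := {u | ∃ y ∈ M, y / t ∈ (T.R w).O ∧ (T.R w).red (y / t) = u}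
  zero_mem' := ⟨0, M.zero_mem, by simp [(T.R w).O.zero_mem], by
    rw [zero_div]; exact (T.R w).red_zero⟩
  add_mem' := by
    rintro _ _ ⟨y, hy, hyO, rfl⟩ ⟨z, hz, hzO, rfl⟩
    refine ⟨y + z, M.add_mem hy hz, ?_, ?_⟩
    · rw [add_div]; exact (T.R w).O.add_mem _ _ hyO hzO
    · rw [add_div]; exact (T.R w).red_add hyO hzO
  smul_mem' := by
    rintro c _ ⟨y, hy, hyO, rfl⟩
    obtain ⟨a, ha, rfl⟩ := T.redA_surj c
    have e1 : ((⟨a, ha⟩ : T.A) • y) / t = algebraMap K0 E0 a * (y / t) := by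
      rw [smul_eq, mul_div_assoc]
    refine ⟨(⟨a, ha⟩ : T.A) • y, M.smul_mem _ hy, ?_, ?_⟩
    · rw [e1]; exact (T.R w).O.mul_mem _ _ (T.algebraMap_mem ha w) hyO
    · rw [e1, (T.R w).red_mul (T.algebraMap_mem ha w) hyO]
      have := T.red_algebraMap a w
      rw [T.red_apply] at this
      rw [this, Algebra.smul_def]

theorem mem_img {w : Ω} {t : E0} {M : Submodule T.A E0} {u : Fb w} :
    u ∈ img T w t M ↔ ∃ y ∈ M, y / t ∈ (T.R w).O ∧ (T.R w).red (y / t) = u := Iff.rfl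

end img

namespace Kum

variable [Fintype Ω] [Fintype Nd] {T : MultiRed K0 E0 k Fb} {ϖ : K0} {N : NodeData k Fb Nd}
  {S : Poles T ϖ N} {p : ℕ} (κ : Kum S p)

/-- `Λ_U (a) = {y ∈ Mf a : w(y) ≥ n_w for all w, w(y) ≥ n_w + 1 for w ∈ U}`. -/
def LamU (a : ℕ) (U : Set Ω) : Submodule T.A E0 where
  carrier := {y | y ∈ κ.Mf a ∧ (∀ w, y / algebraMap K0 E0 ϖ ^ κ.nn w ∈ (T.R w).O) ∧
    ∀ w ∈ U, y / algebraMap K0 E0 ϖ ^ (κ.nn w + 1) ∈ (T.R w).O}
  zero_mem' := ⟨Submodule.zero_mem _, fun w => by simp [(T.R w).O.zero_mem],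
    fun w _ => by simp [(T.R w).O.zero_mem]⟩
  add_mem' := fun {y z} hy hz =>
    ⟨Submodule.add_mem _ hy.1 hz.1,
      fun w => by rw [add_div]; exact (T.R w).O.add_mem _ _ (hy.2.1 w) (hz.2.1 w),
      fun w hw => by rw [add_div]; exact (T.R w).O.add_mem _ _ (hy.2.2 w hw) (hz.2.2 w hw)⟩
  smul_mem' := fun a' y hy =>
    ⟨by
      have : a' • y = (a' : K0) • y := rfl
      rw [this]
      exact Submodule.smul_mem _ _ hy.1,
      fun w => by
        rw [smul_eq, mul_div_assoc]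
        exact (T.R w).O.mul_mem _ _ (algebraMap_mem' T w a') (hy.2.1 w),
      fun w hw => by
        rw [smul_eq, mul_div_assoc]
        exact (T.R w).O.mul_mem _ _ (algebraMap_mem' T w a') (hy.2.2 w hw)⟩

theorem mem_LamU {a : ℕ} {U : Set Ω} {y : E0} : y ∈ κ.LamU a U ↔
    y ∈ κ.Mf a ∧ (∀ w, y / algebraMap K0 E0 ϖ ^ κ.nn w ∈ (T.R w).O) ∧
      ∀ w ∈ U, y / algebraMap K0 E0 ϖ ^ (κ.nn w + 1) ∈ (T.R w).O := Iff.rfl

/-- the lattice `Λ`. -/
def Lam (a : ℕ) : Submodule T.A E0 := κ.LamU a ∅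

/-- the piece `w` (for a linear order on `Ω`). -/
def piece [LinearOrder Ω] (a : ℕ) (w : Ω) : Submodule k (Fb w) :=
  img T w (algebraMap K0 E0 ϖ ^ κ.nn w) (κ.LamU a {w' | w' < w})

theorem LamU_mono (a : ℕ) {U V : Set Ω} (h : U ⊆ V) : κ.LamU a V ≤ κ.LamU a U :=
  fun _ hy => ⟨hy.1, hy.2.1, fun w hw => hy.2.2 w (h hw)⟩

/-- **(LA1)** one step of the chain: (`hD.ker`; `y / ϖ ^ (n + 1) = y / ϖ ^ n / ϖ` : `zpow_add_one₀`, `div_div`). -/
theorem mem_LamU_insert (hD : Disc T ϖ) {a : ℕ} {U : Set Ω} {w : Ω} {y : E0}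
    (hy : y ∈ κ.LamU a U) (h : (T.R w).red (y / algebraMap K0 E0 ϖ ^ κ.nn w) = 0) :
    y ∈ κ.LamU a (insert w U) := by
  have hπ : algebraMap K0 E0 ϖ ≠ 0 := by simpa using hD.ne
  refine ⟨hy.1, hy.2.1, ?_⟩
  intro w' hw'
  rcases hw' with rfl | hw'
  · have := hD.ker w' _ (hy.2.1 w') h
    rwa [div_div, ← zpow_add_one₀ hπ] at this
  · exact hy.2.2 w' hw'

/-- **(LA2)** the end of the chain: `Λ_Ω = ϖ Λ`. -/
theorem exists_of_mem_LamU_univ (hD : Disc T ϖ) {a : ℕ} {y : E0} (hy : y ∈ κ.LamU a Set.univ) :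
    ∃ y' ∈ κ.Lam a, y = algebraMap K0 E0 ϖ * y' := by
  have hπ : algebraMap K0 E0 ϖ ≠ 0 := by simpa using hD.ne
  refine ⟨y / algebraMap K0 E0 ϖ, ⟨?_, fun w => ?_, fun w hw => absurd hw (by simp)⟩, by field_simp⟩
  · have e : y / algebraMap K0 E0 ϖ = ϖ⁻¹ • y := by
      rw [Algebra.smul_def, map_inv₀, div_eq_inv_mul]
    rw [e]
    exact Submodule.smul_mem _ _ hy.1
  · have := hy.2.2 w (Set.mem_univ w)
    rwa [zpow_add_one₀ hπ, mul_comm, ← div_div] at this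

/-- **(LA3)** `Λ` is finitely generated.
PROOF. Choose `m : ℕ` with `0 ≤ m + n_w` for all `w` (`m := ∑ w, (κ.nn w).natAbs`).  For `y ∈ Λ`: `ϖ ^ m y ∈ Mf a` is integral
(`ϖ ^ m y = ϖ ^ (m + n_w) (y / ϖ ^ n_w)`, `zpow` of a nonnegative exponent of `ϖ ∈ O_w`), so it lies in `span A B` (`κ.bdd`), so `y ∈ span A (ϖ⁻¹ ^ m • B)`
(`Submodule.span_induction` or `Submodule.map` by the `A`-linear map `y ↦ (ϖ⁻¹ ^ m) • y`).  `A` is noetherian:
`isNoetherian_span_of_finite`, `isNoetherian_submodule` (see `S36/RC/Chain.lean`, `Lam_fg`). -/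
theorem Lam_fg (hD : Disc T ϖ) (a : ℕ) : (κ.Lam a).FG := by
  classical
  have hπ : algebraMap K0 E0 ϖ ≠ 0 := by simpa using hD.ne
  set π : E0 := algebraMap K0 E0 ϖ with hπdef
  set m : ℕ := ∑ w, (κ.nn w).natAbs with hm
  have hmw : ∀ w, 0 ≤ (m : ℤ) + κ.nn w := by
    intro w
    have h1 : (κ.nn w).natAbs ≤ m :=
      Finset.single_le_sum (f := fun w => (κ.nn w).natAbs) (fun _ _ => Nat.zero_le _)
        (Finset.mem_univ w)
    omega
  obtain ⟨B, hB⟩ := κ.bdd a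
  have := hD.noeth
  have hle : κ.Lam a ≤ Submodule.span T.A
      ((B.image fun b => (π ^ m)⁻¹ * b : Finset E0) : Set E0) := by
    intro y hy
    have h1 : π ^ m * y ∈ κ.Mf a := by
      have e : π ^ m * y = (ϖ ^ m) • y := by
        rw [Algebra.smul_def, map_pow]
      rw [e]
      exact Submodule.smul_mem _ _ hy.1
    have h2 : π ^ m * y ∈ T.O := by
      intro w
      obtain ⟨j, hj⟩ : ∃ j : ℕ, (m : ℤ) + κ.nn w = j := ⟨((m : ℤ) + κ.nn w).toNat, by
        rw [Int.toNat_of_nonneg (hmw w)]⟩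
      have e : π ^ m * y = π ^ j * (y / π ^ κ.nn w) := by
        rw [← zpow_natCast π j, ← hj, zpow_add₀ hπ, zpow_natCast]
        have : π ^ κ.nn w ≠ 0 := zpow_ne_zero _ hπ
        field_simp
      rw [e]
      exact (T.R w).O.mul_mem _ _ ((T.R w).O.pow_mem (T.algebraMap_mem hD.mem w) _) (hy.2.1 w)
    have h3 := hB _ h1 h2
    have key : ∀ z ∈ Submodule.span T.A (B : Set E0), (π ^ m)⁻¹ * z ∈ Submodule.span T.A
        ((B.image fun b => (π ^ m)⁻¹ * b : Finset E0) : Set E0) := by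
      intro z hz
      induction hz using Submodule.span_induction with
      | mem x hx =>
        exact Submodule.subset_span (Finset.mem_coe.2 (Finset.mem_image_of_mem _ hx))
      | zero => rw [mul_zero]; exact Submodule.zero_mem _
      | add x y _ _ hx hy => rw [mul_add]; exact Submodule.add_mem _ hx hy
      | smul c x _ hx =>
        have e : (π ^ m)⁻¹ * (c • x) = c • ((π ^ m)⁻¹ * x) := by
          rw [smul_eq, smul_eq]
          ring
        rw [e]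
        exact Submodule.smul_mem _ _ hx
    have h4 := key _ h3
    rwa [inv_mul_cancel_left₀ (pow_ne_zero _ hπ)] at h4
  have hN : IsNoetherian T.A (Submodule.span T.A
      ((B.image fun b => (π ^ m)⁻¹ * b : Finset E0) : Set E0)) :=
    isNoetherian_span_of_finite T.A (Finset.finite_toSet _)
  exact (isNoetherian_submodule.1 hN) _ hle

/-- **(LA4)** every element of `Mf a` can be scaled into `Λ`.
PROOF. For each `w` choose `N_w` with `ϖ ^ N_w (y / ϖ ^ n_w) ∈ O_w` (`hD.scale`); `N := ∑ w, N_w` works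
(`ϖ ^ N y / ϖ ^ n_w = ϖ ^ (N - N_w) (ϖ ^ N_w (y / ϖ ^ n_w))`, `Finset.single_le_sum`); `Mf a` is a `K0`-subspace. -/
theorem exists_pow_mul_mem_Lam (hD : Disc T ϖ) {a : ℕ} {y : E0} (hy : y ∈ κ.Mf a) :
    ∃ n : ℕ, algebraMap K0 E0 ϖ ^ n * y ∈ κ.Lam a := by
  have hπ : algebraMap K0 E0 ϖ ≠ 0 := by simpa using hD.ne
  choose Nw hNw using fun w => hD.scale w (y / algebraMap K0 E0 ϖ ^ κ.nn w)
  refine ⟨∑ w, Nw w, ?_, fun w => ?_, fun w hw => absurd hw (by simp)⟩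
  · have e : algebraMap K0 E0 ϖ ^ (∑ w, Nw w) * y = (ϖ ^ (∑ w, Nw w)) • y := by
      rw [Algebra.smul_def, map_pow]
    rw [e]
    exact Submodule.smul_mem _ _ hy
  · have hle : Nw w ≤ ∑ w, Nw w :=
      Finset.single_le_sum (f := Nw) (fun _ _ => Nat.zero_le _) (Finset.mem_univ w)
    obtain ⟨c, hc⟩ := Nat.exists_eq_add_of_le hle
    have e : algebraMap K0 E0 ϖ ^ (∑ w, Nw w) * y / algebraMap K0 E0 ϖ ^ κ.nn w =
        algebraMap K0 E0 ϖ ^ c *
          (algebraMap K0 E0 ϖ ^ Nw w * (y / algebraMap K0 E0 ϖ ^ κ.nn w)) := by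
      rw [hc, pow_add]
      ring
    rw [e]
    exact (T.R w).O.mul_mem _ _ ((T.R w).O.pow_mem (T.algebraMap_mem hD.mem w) c) (hNw w)

end Kum

end Fermat.Agent.MR.PLA
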