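import Fermat.Agent.MR.PLA.Count

/-!
# MR / PLA : THE SLOPE FORMULA (output of block PLA)
-/

set_option autoImplicit false
set_option linter.unusedSectionVars false

noncomputable section

namespace Fermat.Agent.MR.PLA

open AlgebraicCurve Fermat.Agent.Lib.RR Fermat.Agent.GAL.RED Fermat.Agent.DR.Abs

variable {K0 E0 k : Type*} [Field K0] [Field E0] [Algebra K0 E0] [Field k] {Ω : Type*}
  {Fb : Ω → Type*} [∀ w, Field (Fb w)] [∀ w, Algebra k (Fb w)] {Nd : Type*}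
  [Fintype Ω] [Fintype Nd] {T : MultiRed K0 E0 k Fb} {ϖ : K0} {N : NodeData k Fb Nd}
  {S : Poles T ϖ N} {p : ℕ} [∀ w, IsFF k (Fb w)] [IsAlgClosed k]

/-- **THE SLOPE FORMULA.**  `ord_P (fb w) ≡ i w' - i w (mod p)` at a node `(w, P) ~ (w', P')`, `ord_P (fb w) ≡ 0 (mod p)` at all the other places. -/
theorem slope_formula [Nonempty Ω] (hD : Disc T ϖ) (hp : 0 < p) (κ : Kum S p)
    (hinj : Function.Injective N.branch) (hloop : ∀ e, N.i₁ e ≠ N.i₂ e) :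
    (∀ e, (p : ℤ) ∣ (N.p₁ e).ord (κ.fb (N.i₁ e)) - (κ.i (N.i₂ e) - κ.i (N.i₁ e))) ∧
    (∀ e, (p : ℤ) ∣ (N.p₂ e).ord (κ.fb (N.i₂ e)) - (κ.i (N.i₁ e) - κ.i (N.i₂ e))) ∧
    ∀ (w : Ω) (P : Place k (Fb w)), (∀ s, N.branch s ≠ ⟨w, P⟩) → (p : ℤ) ∣ P.ord (κ.fb w) := by
  classical
  -- a linear order on `Ω` for which `r` is monotone
  have hinj' : Function.Injective
      (fun w : Ω => toLex (κ.rr w, Fintype.equivFin Ω w)) := by
    intro w w' h
    have h2 : (κ.rr w, Fintype.equivFin Ω w) = (κ.rr w', Fintype.equivFin Ω w') := h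
    exact (Fintype.equivFin Ω).injective (Prod.ext_iff.1 h2).2
  let _ : LinearOrder Ω := LinearOrder.lift' _ hinj'
  have hm : κ.Mono := by
    intro w w' h
    have h2 : toLex (κ.rr w', Fintype.equivFin Ω w') < toLex (κ.rr w, Fintype.equivFin Ω w) := h
    rw [Prod.Lex.toLex_lt_toLex] at h2
    rcases h2 with h2 | h2
    · exact h2.le
    · exact h2.1.le
  have key := κ.dvd_ord_sub_Cdiv hD hp hm hinj hloop
  refine ⟨fun e => ?_, fun e => ?_, fun w P hP => ?_⟩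
  · have h1 := key (N.i₁ e) (N.p₁ e)
    have h2 : κ.Cdiv (N.i₁ e) (N.p₁ e) = κ.cs (Sum.inl e) := κ.Cdiv_branch hinj (Sum.inl e)
    have h3 : (p : ℤ) ∣ (κ.cs (Sum.inl e) : ℤ) - (κ.i (N.i₂ e) - κ.i (N.i₁ e)) :=
      κ.dvd_cc_sub hp hm (hloop e)
    rw [h2] at h1
    have := dvd_add h1 h3
    rwa [sub_add_sub_cancel] at this
  · have h1 := key (N.i₂ e) (N.p₂ e)
    have h2 : κ.Cdiv (N.i₂ e) (N.p₂ e) = κ.cs (Sum.inr e) := κ.Cdiv_branch hinj (Sum.inr e)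
    have h3 : (p : ℤ) ∣ (κ.cs (Sum.inr e) : ℤ) - (κ.i (N.i₁ e) - κ.i (N.i₂ e)) :=
      κ.dvd_cc_sub hp hm (hloop e).symm
    rw [h2] at h1
    have := dvd_add h1 h3
    rwa [sub_add_sub_cancel] at this
  · have h1 := key w P
    rwa [κ.Cdiv_of_not_branch w P hP, sub_zero] at h1

end Fermat.Agent.MR.PLA
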